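/-
Row S59 / HARD (helper659): REALIZER-FREE copy of `S32/H692/RelCore.lean` (helper692).

`S32/H692/RelCore.lean` imports `S31/H982/TracePow.lean`, one of the four modules which realize
`S31.powTr.eq_def`; the closure of `S31.lean`, `S34.lean` and `S59/G4/*` contains another one
(`S31/H22/PowTr.lean`), and a closure containing both fails the kernel checker
(`coord/CI-realized-collisions-helper475.md`).  This copy proves the unfolding lemmas of `powTr`
by `rfl`, so it realizes nothing and can be imported together with ANY of the four families.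

`rel_of_chebWeak659 : S30.H990.ChebWeak → S32.RelStatement`.
-/
import Fermat.Agent.S32.Spec
import Fermat.Agent.S30.H990.Limit
import Fermat.Agent.S59.H540.DetCong

set_option autoImplicit false

namespace Fermat.Agent.S59.TW.H659.Clean

open IsLocalRing Polynomial Fermat.Agent.S19 Fermat.Agent.S31

section PowTr

variable {R : Type*} [CommRing R]

theorem powTr_zero659 (a d : R) : powTr a d 0 = 2 := rfl

theorem powTr_one659 (a d : R) : powTr a d 1 = a := rfl

theorem powTr_add_two659 (a d : R) (j : ℕ) :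
    powTr a d (j + 2) = a * powTr a d (j + 1) - d * powTr a d j := rfl

/-- Ring homomorphisms commute with `powTr`. -/
theorem map_powTr659 {R' : Type*} [CommRing R'] (φ : R →+* R') (a d : R) (j : ℕ) :
    φ (powTr a d j) = powTr (φ a) (φ d) j := by
  induction j using Nat.strong_induction_on with
  | _ j ih =>
    match j, ih with
    | 0, _ => rw [powTr_zero659, powTr_zero659, map_ofNat]
    | 1, _ => rw [powTr_one659, powTr_one659]
    | (j + 2), ih =>
      rw [powTr_add_two659, powTr_add_two659, map_sub, map_mul, map_mul, ih (j + 1) (by omega),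
        ih j (by omega)]

variable {M : Type*} [AddCommGroup M] [Module R M] [Module.Free R M] [Module.Finite R M]

/-- The trace of an endomorphism is minus the next-to-leading coefficient of its characteristic
polynomial. -/
theorem trace_eq_neg_nextCoeff_charpoly659 (f : Module.End R M) :
    LinearMap.trace R M f = -f.charpoly.nextCoeff := by
  classical
  let b := Module.Free.chooseBasis R M
  rw [LinearMap.trace_eq_matrix_trace R b, Matrix.trace_eq_neg_charpoly_nextCoeff,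
    LinearMap.charpoly_toMatrix]

/-- Cayley–Hamilton in rank 2: the trace of `f ^ j` is `powTr a d j` if the characteristic
polynomial of `f` is `X ^ 2 - a X + d`. -/
theorem trace_pow_of_charpoly659 (hrk : Module.finrank R M = 2) (f : Module.End R M)
    (a d : R) (h : f.charpoly = X ^ 2 - C a * X + C d) (j : ℕ) :
    LinearMap.trace R M (f ^ j) = powTr a d j := by
  rcases subsingleton_or_nontrivial R with hR | hR
  · exact Subsingleton.elim _ _
  have hCH : f ^ 2 = a • f - d • (1 : Module.End R M) := by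
    have h1 := LinearMap.aeval_self_charpoly f
    rw [h] at h1
    simp only [map_add, map_sub, map_mul, map_pow, aeval_X, aeval_C] at h1
    rw [Algebra.algebraMap_eq_smul_one, Algebra.algebraMap_eq_smul_one] at h1
    rw [smul_mul_assoc, one_mul] at h1
    rw [← sub_eq_zero]
    rw [← h1]
    abel
  have htr1 : LinearMap.trace R M f = a := by
    have hdeg : f.charpoly.natDegree = 2 := by
      rw [LinearMap.charpoly_natDegree, hrk]
    rw [trace_eq_neg_nextCoeff_charpoly659,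
      nextCoeff_of_natDegree_pos (by rw [hdeg]; norm_num), hdeg, h]
    simp [coeff_C]
  induction j using Nat.strong_induction_on with
  | _ j ih =>
    match j, ih with
    | 0, _ =>
      rw [pow_zero, LinearMap.trace_one, hrk, powTr_zero659]
      norm_num
    | 1, _ => rw [pow_one, htr1, powTr_one659]
    | (j + 2), ih =>
      have hpow : f ^ (j + 2) = a • f ^ (j + 1) - d • f ^ j := by
        rw [pow_add, hCH, mul_sub, mul_smul_comm, mul_smul_comm, mul_one, ← pow_succ]
      rw [hpow, map_sub, map_smul, map_smul, ih (j + 1) (by omega), ih j (by omega),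
        powTr_add_two659, smul_eq_mul, smul_eq_mul]

end PowTr

section TraceCongr

/-- A linear map sends `I • ⊤` into `I • ⊤`. -/
theorem map_mem_smul_top659 {R M : Type*} [CommRing R] [AddCommGroup M] [Module R M]
    (I : Ideal R) (f : Module.End R M) {x : M} (hx : x ∈ I • (⊤ : Submodule R M)) :
    f x ∈ I • (⊤ : Submodule R M) := by
  refine Submodule.smul_induction_on hx ?_ ?_
  · intro a ha w _
    rw [map_smul]
    exact Submodule.smul_mem_smul ha Submodule.mem_top
  · intro x y hx hy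
    rw [map_add]
    exact Submodule.add_mem _ hx hy

/-- Coordinates of an element of `I • ⊤` lie in `I`. -/
theorem repr_mem_of_mem_smul_top659 {R M ι : Type*} [CommRing R] [AddCommGroup M] [Module R M]
    (b : Module.Basis ι R M) (I : Ideal R) {x : M} (hx : x ∈ I • (⊤ : Submodule R M)) (i : ι) :
    b.repr x i ∈ I := by
  refine Submodule.smul_induction_on hx ?_ ?_
  · intro a ha w _
    rw [map_smul, Finsupp.smul_apply, smul_eq_mul]
    exact I.mul_mem_right _ ha
  · intro x y hx hy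
    rw [map_add, Finsupp.add_apply]
    exact I.add_mem hx hy

/-- If an endomorphism of a finite free module has image in `I • ⊤`, its trace lies in `I`. -/
theorem trace_mem_of_forall_mem_smul_top659 {R M : Type*} [CommRing R] [AddCommGroup M]
    [Module R M] [Module.Free R M] [Module.Finite R M] (I : Ideal R) (f : Module.End R M)
    (hf : ∀ v, f v ∈ I • (⊤ : Submodule R M)) : LinearMap.trace R M f ∈ I := by
  classical
  let b := Module.Free.chooseBasis R M
  rw [LinearMap.trace_eq_matrix_trace R b, Matrix.trace]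
  refine I.sum_mem fun i _ => ?_
  rw [Matrix.diag_apply, LinearMap.toMatrix_apply]
  exact repr_mem_of_mem_smul_top659 b I (hf _) i

variable {A : Type} [CommRing A] [IsLocalRing A]

/-- Traces are locally constant modulo `m ^ n`. -/
theorem trace_congr_of_agree659 (ρ : GaloisRepAdic A) (n : ℕ) :
    ∃ L : IntermediateField ℚ Fermat.Agent.S31.Qb, FiniteDimensional ℚ L ∧
      ∀ g g' : Fermat.Agent.S31.GQ, (∀ x ∈ L, g x = g' x) →
        ρ.trace g - ρ.trace g' ∈ IsLocalRing.maximalIdeal A ^ n := by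
  obtain ⟨L, hL, h1⟩ := ρ.isAdicContinuous n
  refine ⟨L, hL, fun g g' hgg' => ?_⟩
  have hσ : ∀ x ∈ L, (g'⁻¹ * g) x = x := by
    intro x hx
    rw [AlgEquiv.mul_apply, hgg' x hx]
    exact g'.symm_apply_apply x
  have hg : g = g' * (g'⁻¹ * g) := by group
  have key : ∀ v, (ρ.ρ g - ρ.ρ g') v ∈
      (IsLocalRing.maximalIdeal A ^ n) • (⊤ : Submodule A ρ.V) := by
    intro v
    have h2 : (ρ.ρ g - ρ.ρ g') v = ρ.ρ g' (ρ.ρ (g'⁻¹ * g) v - v) := by
      conv_lhs => rw [hg]
      rw [map_mul, LinearMap.sub_apply, Module.End.mul_apply, map_sub]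
    rw [h2]
    exact map_mem_smul_top659 _ _ (h1 _ hσ v)
  have := trace_mem_of_forall_mem_smul_top659 _ _ key
  rwa [map_sub] at this

end TraceCongr

section Lucas

variable {R A : Type*} [CommRing R] [Ring A] [Algebra R A]

/-- Explicit Lucas: if `h` satisfies `X² - aX + b`, then `h ^ j` satisfies
`X² - (powTr a b j) X + b ^ j`. -/
theorem lucas_powTr659 (h : A) (a b : R) (hrel : h * h - a • h + b • (1 : A) = 0) (j : ℕ) :
    h ^ j * h ^ j - powTr a b j • h ^ j + (b ^ j) • (1 : A) = 0 := by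
  set k : A := a • (1 : A) - h with hk
  have hcomm : Commute h k := by
    have : Commute h (a • (1 : A)) := (Commute.one_right h).smul_right a
    exact this.sub_right (Commute.refl h)
  have hhk : h * k = b • (1 : A) := by
    have : h * k = a • h - h * h := by
      rw [hk, mul_sub, mul_smul_comm, mul_one]
    rw [this]
    calc a • h - h * h = b • (1 : A) - (h * h - a • h + b • (1 : A)) := by abel
      _ = b • (1 : A) := by rw [hrel, sub_zero]
  have hsum : h + k = a • (1 : A) := by rw [hk]; abel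
  have key : ∀ n : ℕ, h ^ n + k ^ n = powTr a b n • (1 : A) := by
    intro n
    induction n using Nat.strong_induction_on with
    | _ n ih =>
      match n, ih with
      | 0, _ => rw [pow_zero, pow_zero, powTr_zero659, two_smul]
      | 1, _ => rw [pow_one, pow_one, powTr_one659, hsum]
      | (n + 2), ih =>
        have h1 := ih (n + 1) (by omega)
        have h0 := ih n (by omega)
        have e1 : h ^ (n + 1 + 1) + k ^ (n + 1 + 1)
            = (h + k) * (h ^ (n + 1) + k ^ (n + 1)) - (h * k) * (h ^ n + k ^ n) := by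
          have c1 : k * h ^ (n + 1) = (h * k) * h ^ n := by
            rw [pow_succ', ← mul_assoc, hcomm.eq]
          have c2 : h * k ^ (n + 1) = (h * k) * k ^ n := by
            rw [pow_succ', ← mul_assoc]
          rw [add_mul, mul_add, mul_add, mul_add, c1, c2, pow_succ' h (n + 1),
            pow_succ' k (n + 1)]
          abel
        rw [e1, hsum, hhk, h1, h0, powTr_add_two659]
        simp only [mul_smul_comm, mul_one, smul_smul, sub_smul]
        rw [mul_comm (powTr a b (n + 1)) a, mul_comm (powTr a b n) b]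
  have hprod : h ^ j * k ^ j = (b ^ j) • (1 : A) := by
    rw [← hcomm.mul_pow, hhk, _root_.smul_pow, one_pow]
  have : h ^ j * h ^ j - powTr a b j • h ^ j + (b ^ j) • (1 : A)
      = h ^ j * (h ^ j + k ^ j - powTr a b j • (1 : A)) := by
    rw [mul_sub, mul_add, hprod, mul_smul_comm, mul_one]
    abel
  rw [this, key j, sub_self, mul_zero]

end Lucas

section Local

/-- A local homomorphism maps `𝔪 ^ n` into `𝔪 ^ n`. -/
theorem map_mem_maximalIdeal_pow659 {T O : Type*} [CommRing T] [IsLocalRing T] [CommRing O]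
    [IsLocalRing O] (χ : T →+* O) [IsLocalHom χ] (n : ℕ) {t : T}
    (ht : t ∈ maximalIdeal T ^ n) : χ t ∈ maximalIdeal O ^ n := by
  have hmap : (maximalIdeal T ^ n).map χ ≤ maximalIdeal O ^ n := by
    rw [Ideal.map_pow]
    exact Ideal.pow_right_mono (Ideal.map_le_iff_le_comap.mpr fun a ha =>
      Ideal.mem_comap.mpr (map_nonunit χ a ha)) n
  exact hmap (Ideal.mem_map_of_mem χ ht)

end Local

section Main

set_option maxHeartbeats 1000000 in
/-- **REL modulo `𝔪 ^ n`.** -/
theorem rel_mod659 (hcheb : Fermat.Agent.S30.H990.ChebWeak)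
    {p : ℕ} {N : ℕ} [NeZero N] {S : Finset ℕ}
    (hNS : ∀ q : ℕ, q.Prime → q ∣ N → q ∈ S)
    {𝒪 : Type} [CommRing 𝒪] [IsDomain 𝒪] [IsDiscreteValuationRing 𝒪]
    [IsAdicComplete (maximalIdeal 𝒪) 𝒪]
    {θ : CuspForm.heckeAlgebra N 2 (↑S : Set ℕ) →+* ResidueField 𝒪}
    {T : Type} [CommRing T] [IsLocalRing T] [IsNoetherianRing T]
    [IsAdicComplete (maximalIdeal T) T] [Algebra 𝒪 T] [IsLocalHom (algebraMap 𝒪 T)]
    [Module.Finite 𝒪 T] [Module.Free 𝒪 T]
    (H : CuspForm.HeckeGaloisRepDatum N (↑S : Set ℕ) 𝒪 θ T)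
    (P : PadicPoint p T) (hloc : IsLocalHom P.χ)
    (E : Fermat.Agent.S30.H990.AdicEigenModule p N S P.O (P.χ.comp H.π)) (g : GalQ)
    (n : ℕ) (v : E.M) :
    E.ρ g (E.ρ g v) - P.χ (H.ρ.trace g) • E.ρ g v + P.χ ((H.ρ.det g : Tˣ) : T) • v
      ∈ (maximalIdeal P.O ^ n) • (⊤ : Submodule P.O E.M) := by
  have hlocI : IsLocalHom P.χ := hloc
  -- levels
  obtain ⟨L₁, hL₁fin, hL₁⟩ := E.cont n
  obtain ⟨L₂, hL₂fin, hL₂⟩ := trace_congr_of_agree659 H.ρ n
  obtain ⟨L₃, hL₃fin, hL₃⟩ := H.ρ.isAdicContinuous n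
  have hf₁ : FiniteDimensional ℚ L₁ := hL₁fin
  have hf₂ : FiniteDimensional ℚ L₂ := hL₂fin
  have hf₃ : FiniteDimensional ℚ L₃ := hL₃fin
  have h12 : FiniteDimensional ℚ ↥(L₁ ⊔ L₂) := IntermediateField.finiteDimensional_sup L₁ L₂
  have hLfin : FiniteDimensional ℚ ↥(L₁ ⊔ L₂ ⊔ L₃) :=
    IntermediateField.finiteDimensional_sup (L₁ ⊔ L₂) L₃
  have hle₁ : L₁ ≤ L₁ ⊔ L₂ ⊔ L₃ := le_sup_left.trans le_sup_left
  have hle₂ : L₂ ≤ L₁ ⊔ L₂ ⊔ L₃ := le_sup_right.trans le_sup_left
  have hle₃ : L₃ ≤ L₁ ⊔ L₂ ⊔ L₃ := le_sup_right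
  obtain ⟨ℓ, hℓ, hℓS, A, hA, τ, hτ, j, hj⟩ := hcheb (L₁ ⊔ L₂ ⊔ L₃) hLfin g S
  have hℓN : ¬ ℓ ∣ N := fun h => hℓS (hNS ℓ hℓ h)
  have hℓS' : ℓ ∉ (↑S : Set ℕ) := fun h => hℓS (Finset.mem_coe.mp h)
  -- `g = τ ^ j * σ` with `σ` fixing the level
  obtain ⟨σ, hg⟩ : ∃ σ : GalQ, g = τ ^ j * σ :=
    ⟨(τ ^ j)⁻¹ * g, (mul_inv_cancel_left (τ ^ j) g).symm⟩
  have hσfix : ∀ x ∈ L₁ ⊔ L₂ ⊔ L₃, σ x = x := by
    intro x hx
    have h1 : (τ ^ j) (σ x) = (τ ^ j) x := by
      rw [← hj x hx]
      exact (congrArg (fun f : GalQ => f x) hg).symm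
    exact (τ ^ j).injective h1
  -- the eigenmodule side
  have hs : ∀ w : E.M, E.ρ σ w - w ∈ (maximalIdeal P.O ^ n) • (⊤ : Submodule P.O E.M) :=
    hL₁ σ (fun x hx => hσfix x (hle₁ hx))
  have hfrob := E.frob ℓ hℓ hℓN hℓS' A hA τ hτ
  obtain ⟨a₀, ha₀⟩ : ∃ a₀ : P.O, a₀ = P.χ (H.π (CuspForm.heckeAlgebra.T hℓ hℓN hℓS')) :=
    ⟨_, rfl⟩
  have hfrob' : E.ρ τ * E.ρ τ - a₀ • E.ρ τ + (ℓ : P.O) • (1 : Module.End P.O E.M) = 0 := by
    rw [ha₀]; exact hfrob
  have hluc := lucas_powTr659 (E.ρ τ) a₀ (ℓ : P.O) hfrob' j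
  have key := Fermat.Agent.S30.H990.rel_mod_of_mul (maximalIdeal P.O ^ n) (E.ρ τ ^ j) (E.ρ σ)
    (powTr a₀ (ℓ : P.O) j) ((ℓ : P.O) ^ j) 1 hluc hs (by rw [sub_self]; exact Ideal.zero_mem _) v
  have hρg : E.ρ τ ^ j * E.ρ σ = E.ρ g := by
    have := congrArg E.ρ hg
    rw [map_mul, map_pow] at this
    exact this.symm
  rw [hρg, mul_one] at key
  -- the datum side: trace
  have htr : H.ρ.trace g - H.ρ.trace (τ ^ j) ∈ maximalIdeal T ^ n :=
    hL₂ g (τ ^ j) (fun x hx => hj x (hle₂ hx))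
  have hcp := H.charpoly_frob ℓ hℓ hℓN hℓS' A hA τ hτ
  have htrpow : H.ρ.trace (τ ^ j)
      = powTr (H.π (CuspForm.heckeAlgebra.T hℓ hℓN hℓS')) (ℓ : T) j := by
    have := trace_pow_of_charpoly659 H.ρ.finrank_eq (H.ρ.ρ τ) _ _ hcp j
    rw [← this]
    show LinearMap.trace T H.ρ.V (H.ρ.ρ (τ ^ j)) = _
    rw [map_pow]
  have hχtr : P.χ (H.ρ.trace (τ ^ j)) = powTr a₀ (ℓ : P.O) j := by
    rw [htrpow, map_powTr659, map_natCast, ha₀]
  have ha : P.χ (H.ρ.trace g) - powTr a₀ (ℓ : P.O) j ∈ maximalIdeal P.O ^ n := by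
    rw [← hχtr, ← map_sub]
    exact map_mem_maximalIdeal_pow659 P.χ n htr
  -- the datum side: determinant
  have hdetσ : LinearMap.det (H.ρ.ρ σ) - 1 ∈ maximalIdeal T ^ n :=
    Fermat.Agent.S59.H540.det_sub_one_mem _ _ (hL₃ σ (fun x hx => hσfix x (hle₃ hx)))
  have hdetτ : LinearMap.det (H.ρ.ρ τ) = (ℓ : T) :=
    Fermat.Agent.S59.H540.det_eq_of_charpoly H.ρ.finrank_eq (H.ρ.ρ τ) _ _ hcp
  have hdetg : ((H.ρ.det g : Tˣ) : T) = (ℓ : T) ^ j * LinearMap.det (H.ρ.ρ σ) := by
    have h1 : ((H.ρ.det g : Tˣ) : T) = LinearMap.det (H.ρ.ρ g) := rfl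
    have h2 : H.ρ.ρ g = H.ρ.ρ τ ^ j * H.ρ.ρ σ := by
      have := congrArg H.ρ.ρ hg
      rwa [map_mul, map_pow] at this
    rw [h1, h2, map_mul, map_pow, hdetτ]
  have hd : P.χ ((H.ρ.det g : Tˣ) : T) - (ℓ : P.O) ^ j ∈ maximalIdeal P.O ^ n := by
    have h1 : ((H.ρ.det g : Tˣ) : T) - (ℓ : T) ^ j ∈ maximalIdeal T ^ n := by
      rw [hdetg]
      have : (ℓ : T) ^ j * LinearMap.det (H.ρ.ρ σ) - (ℓ : T) ^ j
          = (ℓ : T) ^ j * (LinearMap.det (H.ρ.ρ σ) - 1) := by ring
      rw [this]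
      exact Ideal.mul_mem_left _ _ hdetσ
    have h2 := map_mem_maximalIdeal_pow659 P.χ n h1
    rwa [map_sub, map_pow, map_natCast] at h2
  -- conclusion
  have hfin : E.ρ g (E.ρ g v) - P.χ (H.ρ.trace g) • E.ρ g v + P.χ ((H.ρ.det g : Tˣ) : T) • v
      = ((E.ρ g) ((E.ρ g) v) - powTr a₀ (ℓ : P.O) j • (E.ρ g) v + ((ℓ : P.O) ^ j) • v)
        - (P.χ (H.ρ.trace g) - powTr a₀ (ℓ : P.O) j) • E.ρ g v
        + (P.χ ((H.ρ.det g : Tˣ) : T) - (ℓ : P.O) ^ j) • v := by
    module
  rw [hfin]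
  exact Submodule.add_mem _ (Submodule.sub_mem _ key
    (Submodule.smul_mem_smul ha Submodule.mem_top)) (Submodule.smul_mem_smul hd Submodule.mem_top)

/-- **REL** from the weak Chebotarev hypothesis. -/
theorem rel_of_chebWeak659 (hcheb : Fermat.Agent.S30.H990.ChebWeak) : Fermat.Agent.S32.RelStatement := by
  intro p _ N _ S _hpS hNS 𝒪 _ _ _ _ θ T _ _ _ _ _ _ _ _ H P hloc E g
  refine LinearMap.ext fun v => ?_
  have hv : E.ρ g (E.ρ g v) - P.χ (H.ρ.trace g) • E.ρ g v + P.χ ((H.ρ.det g : Tˣ) : T) • v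
      ∈ ⨅ i : ℕ, (maximalIdeal P.O ^ i) • (⊤ : Submodule P.O E.M) := by
    rw [Submodule.mem_iInf]
    exact fun n => rel_mod659 hcheb hNS H P hloc E g n v
  rw [Ideal.iInf_pow_smul_eq_bot_of_isLocalRing _ (maximalIdeal.isMaximal P.O).ne_top,
    Submodule.mem_bot] at hv
  simpa using hv

end Main

end Fermat.Agent.S59.TW.H659.Clean
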