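/-
Row S59 / HARD (helper659): REL on the realizer-free chain.

`rel659 : S32.RelStatement` — the same statement as `S32.H692.rel`, but the closure of this file
contains NONE of the four modules which realize `S31.powTr.eq_def`
(`coord/CI-realized-collisions-helper475.md`), so it can be imported together with `S31.lean`,
`S34.lean`, `S59/G4/*`.  `S32.H692.rel` is the ONLY entry of `S31/H982/TracePow.lean` into the
chains of S32 and of S33.
-/
import Fermat.Agent.S59.TW.H659.Clean.RelCore
import Fermat.Agent.S30.H990.Cheb
import Fermat.Agent.Lib.Cheb.FrobeniusDivision

set_option autoImplicit false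

namespace Fermat.Agent.S59.TW.H659.Clean

/-- **REL** (realizer-free chain).  At a local point `P` of the coefficient ring of a datum, every
element of `G_ℚ` satisfies on the eigenmodule of `P.χ ∘ π` the characteristic polynomial of
`H.ρ`. -/
theorem rel659 : Fermat.Agent.S32.RelStatement :=
  rel_of_chebWeak659
    (Fermat.Agent.S30.H990.chebWeak_of_frobeniusDivision Fermat.Agent.Lib.Cheb.frobeniusDivision)

end Fermat.Agent.S59.TW.H659.Clean
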