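/-
Row S59 / HARD (helper659): the frozen statement S32 as a `Prop`, on a REALIZER-FREE chain.

`Fermat/Agent/S32.lean` has `S31/H982/TracePow.lean` in its closure (through
`S32/H692/RelCore.lean`), so it cannot be imported together with `S31.lean`, `S34.lean` or
`S59/G4/*` (`S31/H22/PowTr.lean`): see `coord/CI-realized-collisions-helper475.md`.
This file re-wires S32 exactly as `S32/OfS19.lean` + `S32.lean` do, with the REL piece replaced by
the realizer-free copy `Clean/RelCore.lean`.

* `s32Statement_clean659 : S32.S32Statement`  (REL = `Clean.rel659`, `Clean/Rel.lean`).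
-/
import Fermat.Agent.S59.TW.H659.Clean.Rel
import Fermat.Agent.S32.EigChain
import Fermat.Agent.S32.H152.Emb
import Fermat.Agent.S32.H185.Red
import Fermat.Agent.S59.G4.H109.Points
import Fermat.Agent.A3.H619.OrdStatement
import Fermat.Agent.S30.Chain.FromT
import Fermat.Agent.S30.H694.TorsionRelOfNodes
import Fermat.Agent.S18.Mod.H216.NodeMod
import Fermat.Agent.S18.H438.NodeAlg
import Fermat.Agent.A3.H615.GrFinal

set_option autoImplicit false

noncomputable section

namespace Fermat.Agent.S59.TW.H659.Clean

open Fermat.Agent.S19 Fermat.Agent.S32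

/-- **EIG, unconditionally up to S19** (as in `S32/OfS19.lean`). -/
theorem flatEigenStatement_of_s19_659
    (hS19 : ∀ (N p : ℕ) [NeZero N], p.Prime → ¬ p ∣ N → ∀ k : ℕ,
      HopfModel p (Tors N p k) (torsAct N p k)) :
    FlatEigenStatement :=
  flatEigenStatement_of_chain Fermat.Agent.A3.H619.ord hS19
    (fun N _ p hp =>
      haveI : NeZero p := ⟨hp.out.ne_zero⟩
      Fermat.Agent.S30.H330.kummerInjStatement_of_packages (fun n =>
        haveI : NeZero (p ^ n) := ⟨pow_ne_zero n hp.out.ne_zero⟩
        Fermat.Agent.S30.Chain.kumPackage N (p ^ n)))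
    (fun N _ p hp =>
      haveI : NeZero p := ⟨hp.out.ne_zero⟩
      Fermat.Agent.S30.H330.finStatement_of_onto
        (Fermat.Agent.S30.Chain.kumPackage N p).uniq
        (fun _ hx => Fermat.Agent.S30.H810.exists_isKum_of_torsion N p hx))
    (Fermat.Agent.S30.H694.torsionRelations_of_nodes
      (fun M _ _ _ hℓM A hA => Fermat.Agent.S18.Mod.H216.node_mod M hℓM A hA)
      (fun M => Fermat.Agent.S18.H438.node_alg M))

/-- **The frozen statement S32 from the frozen S19** (Hopf-model form). -/
theorem s32_of_s19_659
    (hS19 : ∀ (N p : ℕ) [NeZero N], p.Prime → ¬ p ∣ N → ∀ k : ℕ,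
      HopfModel p (Tors N p k) (torsAct N p k)) :
    S32Statement :=
  s32_of_pieces Fermat.Agent.A3.H619.ord (flatEigenStatement_of_s19_659 hS19)
    rel659 Fermat.Agent.S32.H152.embedStatement Fermat.Agent.S32.H185.red
    Fermat.Agent.S59.G4.H109.points

/-- **The frozen statement S32**, as a `Prop`, on the realizer-free chain. -/
theorem s32Statement_clean659 : S32Statement :=
  s32_of_s19_659 (fun N p _ hp hpN k =>
    haveI : Fact p.Prime := ⟨hp⟩
    H135.hopfModel_of_frozenShape N p k (Fermat.Agent.A3.H615.frozenS19 N p hpN k))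

end Fermat.Agent.S59.TW.H659.Clean
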