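/-
Row S59 / HARD (helper659): the frozen statement S33 as a `Prop`, on the REALIZER-FREE chain.

Same term as `Fermat/Agent/S33.lean` (helper409), with `S33.result_of_key` replaced by
`Clean.s33_of_key659`: the closure of this file contains none of the four modules which realize
`S31.powTr.eq_def`, so it can be imported together with `S31.lean`, `S34.lean`, `S59/G4/*`.
-/
import Fermat.Agent.S59.TW.H659.Clean.S33
import Fermat.Agent.S33.H692.OldAug
import Fermat.Agent.S33.H849.S2Ready
import Fermat.Agent.S33.H558.DKReady
import Fermat.Agent.Ribet.H573.WeakApprox
import Fermat.Agent.Ribet.H279.NormContr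

set_option autoImplicit false

namespace Fermat.Agent.S59.TW.H659.Clean

/-- **The frozen statement S33**, as a `Prop`, on the realizer-free chain. -/
theorem s33Statement_clean659 : Fermat.Agent.S33.S33Statement :=
  s33_of_key659
    (Fermat.Agent.S33.H849.keyStatement_of_chain
      Fermat.Agent.Ribet.H573.splitLift
      Fermat.Agent.Ribet.H279.NC.normContr
      Fermat.Agent.S33.H558.deepKummerReady
      Fermat.Agent.S33.H692.oldAugStatement)

end Fermat.Agent.S59.TW.H659.Clean
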